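import Fermat.Agent.S23_helper24.Division

set_option autoImplicit false

namespace Fermat.Agent.S23_helper24

open UpperHalfPlane Filter Topology ModularForm
open scoped MatrixGroups ModularForm Manifold

/-! ### Cancellation of a nonzero holomorphic factor -/

theorem eq_of_mul_eq_mul_right_mdiff {F₁ F₂ Q : ℍ → ℂ} (h1 : MDiff F₁) (h2 : MDiff F₂)
    (hQ : MDiff Q) (hQ0 : Q ≠ 0) (h : ∀ z, F₁ z * Q z = F₂ z * Q z) : F₁ = F₂ := by
  have h0 : (F₁ - F₂) * Q = 0 := by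
    funext z
    simp only [Pi.mul_apply, Pi.sub_apply, Pi.zero_apply, sub_mul, h z, sub_self]
  rcases (UpperHalfPlane.mul_eq_zero_iff (h1.sub h2) hQ).mp h0 with h' | h'
  · exact sub_eq_zero.mp h'
  · exact absurd h' hQ0

theorem pow_ne_zero_mdiff {Q : ℍ → ℂ} (hQ0 : Q ≠ 0) (n : ℕ) : Q ^ n ≠ 0 := by
  intro h
  apply hQ0
  funext z
  have := congrFun h z
  simp only [Pi.pow_apply, Pi.zero_apply] at this
  rcases Nat.eq_zero_or_pos n with rfl | hn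
  · simp at this
  · exact (pow_eq_zero_iff hn.ne').mp this

/-! ### The monic equation for the quotient -/

theorem monic_equation_of_quotient {G Q h : ℍ → ℂ} (hh : MDiff h) (hQ : MDiff Q) (hQ0 : Q ≠ 0)
    {n : ℕ} (c : Fin n → ℍ → ℂ) (hc : ∀ i, MDiff (c i)) (hhQ : ∀ z, h z * Q z = G z)
    (heq : ∀ z, G z ^ n + ∑ i : Fin n, c i z * G z ^ (i : ℕ) * Q z ^ (n - (i : ℕ)) = 0) :
    ∀ z, h z ^ n + ∑ i : Fin n, c i z * h z ^ (i : ℕ) = 0 := by
  set P : ℍ → ℂ := fun z => h z ^ n + ∑ i : Fin n, c i z * h z ^ (i : ℕ) with hP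
  have hPd : MDiff P := by
    have h1 : MDiff (h ^ n + ∑ i : Fin n, c i * h ^ (i : ℕ)) := by
      refine (hh.pow n).add ?_
      have : ∀ s : Finset (Fin n), MDiff (∑ i ∈ s, c i * h ^ (i : ℕ)) := by
        intro s
        induction s using Finset.induction_on with
        | empty =>
          rw [Finset.sum_empty]
          exact (mdifferentiable_const : MDiff (fun _ : ℍ => (0 : ℂ)))
        | insert a s ha ih =>
          rw [Finset.sum_insert ha]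
          exact ((hc a).mul (hh.pow _)).add ih
      exact this _
    have h2 : P = h ^ n + ∑ i : Fin n, c i * h ^ (i : ℕ) := by
      funext z
      simp [hP, Finset.sum_apply]
    rw [h2]
    exact h1
  have hPQ : P * Q ^ n = 0 := by
    funext z
    simp only [Pi.mul_apply, Pi.pow_apply, Pi.zero_apply, hP]
    rw [← heq z, add_mul, Finset.sum_mul, ← mul_pow, hhQ z]
    congr 1
    refine Finset.sum_congr rfl fun i _ => ?_
    have hi : (i : ℕ) ≤ n := i.2.le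
    rw [← hhQ z, mul_pow]
    have : Q z ^ n = Q z ^ (i : ℕ) * Q z ^ (n - (i : ℕ)) := by
      rw [← pow_add, Nat.add_sub_cancel' hi]
    rw [this]
    ring
  rcases (UpperHalfPlane.mul_eq_zero_iff hPd (hQ.pow n)).mp hPQ with h' | h'
  · intro z
    exact congrFun h' z
  · exact absurd h' (pow_ne_zero_mdiff hQ0 n)

/-! ### The slashed monic equation -/

theorem monic_equation_slash {h : ℍ → ℂ} {n : ℕ} (c : Fin n → ℍ → ℂ) (k : ℤ)
    (heq : ∀ z, h z ^ n + ∑ i : Fin n, c i z * h z ^ (i : ℕ) = 0) (γ : SL(2, ℤ)) :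
    ∀ z, (h ∣[k] γ) z ^ n +
      ∑ i : Fin n, (c i ∣[k * ((n : ℤ) - ((i : ℕ) : ℤ))] γ) z * (h ∣[k] γ) z ^ (i : ℕ) = 0 := by
  intro z
  have hd : denom γ z ≠ 0 := denom_ne_zero γ z
  set D : ℂ := denom γ z ^ (-k) with hD
  have hDi : ∀ i : Fin n, denom γ z ^ (-(k * ((n : ℤ) - ((i : ℕ) : ℤ)))) = D ^ (n - (i : ℕ)) := by
    intro i
    have hi : (i : ℕ) ≤ n := i.2.le
    rw [hD, ← zpow_natCast, ← zpow_mul]
    congr 1
    push_cast [Nat.cast_sub hi]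
    ring
  simp only [SL_slash_apply]
  rw [← hD]
  have key : ∀ i : Fin n, c i (γ • z) * denom γ z ^ (-(k * ((n : ℤ) - ((i : ℕ) : ℤ)))) *
      (h (γ • z) * D) ^ (i : ℕ) = (c i (γ • z) * h (γ • z) ^ (i : ℕ)) * D ^ n := by
    intro i
    have hi : (i : ℕ) ≤ n := i.2.le
    rw [hDi i, mul_pow]
    have : D ^ n = D ^ (n - (i : ℕ)) * D ^ (i : ℕ) := by
      rw [← pow_add, Nat.sub_add_cancel hi]
    rw [this]
    ring
  rw [Finset.sum_congr rfl fun i _ => key i, ← Finset.sum_mul, mul_pow, ← add_mul, heq (γ • z),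
    zero_mul]

/-! ### Behaviour at `i∞` of roots of monic equations -/

theorem isZeroAtImInfty_of_monic_equation {h : ℍ → ℂ} {n : ℕ} (hn : 0 < n) (c : Fin n → ℍ → ℂ)
    (hc0 : ∀ i, IsZeroAtImInfty (c i))
    (heq : ∀ z, h z ^ n + ∑ i : Fin n, c i z * h z ^ (i : ℕ) = 0) : IsZeroAtImInfty h := by
  set M : ℍ → ℝ := fun z => ∑ i, ‖c i z‖ with hM
  have hMt : Tendsto M atImInfty (𝓝 0) := by
    have : Tendsto M atImInfty (𝓝 (∑ _i : Fin n, (0 : ℝ))) := by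
      refine tendsto_finsetSum _ fun i _ => ?_
      exact tendsto_zero_iff_norm_tendsto_zero.mp (hc0 i)
    simpa using this
  have hM0 : ∀ z, 0 ≤ M z := fun z => Finset.sum_nonneg fun i _ => norm_nonneg _
  rw [IsZeroAtImInfty, ZeroAtFilter, NormedAddGroup.tendsto_nhds_zero]
  intro ε hε
  have hδ : 0 < min (ε ^ n) 1 := lt_min (pow_pos hε n) one_pos
  filter_upwards [hMt.eventually (gt_mem_nhds hδ)] with z hz
  have h1 := norm_pow_le_of_monic_root hn (fun i => c i z) (h z) (heq z)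
  have hz1 : M z < ε ^ n := lt_of_lt_of_le hz (min_le_left _ _)
  have hz2 : M z ≤ 1 := (lt_of_lt_of_le hz (min_le_right _ _)).le
  have h2 : M z ^ n ≤ M z := by
    calc M z ^ n = M z ^ (n - 1) * M z := by rw [← pow_succ, Nat.sub_add_cancel hn]
      _ ≤ 1 * M z := mul_le_mul_of_nonneg_right (pow_le_one₀ (hM0 z) hz2) (hM0 z)
      _ = M z := one_mul _
  have h3 : ‖h z‖ ^ n < ε ^ n := lt_of_le_of_lt (h1.trans (max_le le_rfl h2)) hz1
  exact lt_of_pow_lt_pow_left₀ n hε.le h3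

theorem isBoundedAtImInfty_of_monic_equation {h : ℍ → ℂ} {n : ℕ} (hn : 0 < n)
    (c : Fin n → ℍ → ℂ) (hcb : ∀ i, IsBoundedAtImInfty (c i))
    (heq : ∀ z, h z ^ n + ∑ i : Fin n, c i z * h z ^ (i : ℕ) = 0) : IsBoundedAtImInfty h := by
  set M : ℍ → ℝ := fun z => 1 + ∑ i, ‖c i z‖ with hM
  have hMb : M =O[atImInfty] (1 : ℍ → ℝ) := by
    have h0 : (fun _ : ℍ => (1 : ℝ)) =O[atImInfty] (1 : ℍ → ℝ) := Asymptotics.isBigO_refl _ _
    have h2 : (fun z : ℍ => ∑ i, ‖c i z‖) =O[atImInfty] (1 : ℍ → ℝ) := by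
      refine Asymptotics.IsBigO.fun_sum (A := fun (i : Fin n) (z : ℍ) => ‖c i z‖) fun i _ => ?_
      exact (Asymptotics.isBigO_norm_left.mpr (hcb i))
    exact h0.add h2
  have h1 : h =O[atImInfty] M := by
    refine Asymptotics.IsBigO.of_norm_le fun z => ?_
    exact norm_le_one_add_of_monic_root hn (fun i => c i z) (h z) (heq z)
  exact h1.trans hMb

/-! ### The invariant quotient -/

theorem exists_invariant_quotient {Γ : Subgroup (GL (Fin 2) ℝ)} [Γ.HasDetOne] {k w : ℤ}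
    {G Q : ℍ → ℂ} (hG : MDiff G) (hQ : MDiff Q) (hQ0 : Q ≠ 0)
    (hGs : ∀ γ ∈ Γ, G ∣[k + w] γ = G) (hQs : ∀ γ ∈ Γ, Q ∣[w] γ = Q)
    {n : ℕ} (hn : 0 < n) (c : Fin n → ℍ → ℂ) (hc : ∀ i, MDiff (c i))
    (heq : ∀ z, G z ^ n + ∑ i : Fin n, c i z * G z ^ (i : ℕ) * Q z ^ (n - (i : ℕ)) = 0) :
    ∃ h : ℍ → ℂ, MDiff h ∧ (∀ z, h z * Q z = G z) ∧ (∀ γ ∈ Γ, h ∣[k] γ = h) ∧
      ∀ z, h z ^ n + ∑ i : Fin n, c i z * h z ^ (i : ℕ) = 0 := by
  obtain ⟨h, hh, hhQ⟩ := exists_mdiff_quotient hG hQ hQ0 hn c hc heq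
  refine ⟨h, hh, hhQ, ?_, monic_equation_of_quotient hh hQ hQ0 c hc hhQ heq⟩
  intro γ hγ
  refine eq_of_mul_eq_mul_right_mdiff (hh.slash k γ) hh hQ hQ0 fun z => ?_
  have hprod : h * Q = G := funext hhQ
  have h1 : (h * Q) ∣[k + w] γ = h ∣[k] γ * Q ∣[w] γ := by
    rw [ModularForm.mul_slash]
    have hdet : |(γ.det : ℝ)| = 1 := Subgroup.HasDetPlusMinusOne.abs_det hγ
    rw [hdet, one_smul]
  rw [hprod, hGs γ hγ, hQs γ hγ] at h1
  have := congrFun h1 z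
  rw [Pi.mul_apply] at this
  rw [← this, hhQ z]

theorem exists_quotient_form {Γ : Subgroup (GL (Fin 2) ℝ)} [Γ.IsArithmetic] [Γ.HasDetOne]
    {k w : ℤ} (G : ModularForm Γ (k + w)) (Q : ModularForm Γ w) (hQ0 : (Q : ℍ → ℂ) ≠ 0)
    {n : ℕ} (hn : 0 < n) (c : Fin n → ℍ → ℂ) (hc : ∀ i, MDiff (c i))
    (hcb : ∀ (i : Fin n) (γ : SL(2, ℤ)), IsBoundedAtImInfty (c i ∣[k * ((n : ℤ) - ((i : ℕ) : ℤ))] γ))
    (heq : ∀ z, G z ^ n + ∑ i : Fin n, c i z * G z ^ (i : ℕ) * Q z ^ (n - (i : ℕ)) = 0) :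
    ∃ f : ModularForm Γ k, (∀ z, f z * Q z = G z) ∧
      ((∀ (i : Fin n) (γ : SL(2, ℤ)), IsZeroAtImInfty (c i ∣[k * ((n : ℤ) - ((i : ℕ) : ℤ))] γ)) →
        ∃ f' : CuspForm Γ k, (f' : ℍ → ℂ) = f) := by
  obtain ⟨h, hh, hhQ, hinv, hmon⟩ := exists_invariant_quotient (Γ := Γ) (k := k) (w := w)
    (ModularFormClass.holo G) (ModularFormClass.holo Q) hQ0
    (fun γ hγ => SlashInvariantFormClass.slash_action_eq G γ hγ)
    (fun γ hγ => SlashInvariantFormClass.slash_action_eq Q γ hγ) hn c hc heq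
  refine ⟨⟨⟨h, hinv⟩, hh, ?_⟩, hhQ, fun hc0 => ⟨⟨⟨h, hinv⟩, hh, ?_⟩, rfl⟩⟩
  · intro cusp hcusp
    rw [Subgroup.IsArithmetic.isCusp_iff_isCusp_SL2Z] at hcusp
    rw [OnePoint.isBoundedAt_iff_forall_SL2Z hcusp]
    intro γ _
    exact isBoundedAtImInfty_of_monic_equation hn _ (fun i => hcb i γ)
      (monic_equation_slash c k hmon γ)
  · intro cusp hcusp
    rw [Subgroup.IsArithmetic.isCusp_iff_isCusp_SL2Z] at hcusp
    rw [OnePoint.isZeroAt_iff_forall_SL2Z hcusp]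
    intro γ _
    exact isZeroAtImInfty_of_monic_equation hn _ (fun i => hc0 i γ)
      (monic_equation_slash c k hmon γ)

theorem exists_cuspForm_quotient {Γ : Subgroup (GL (Fin 2) ℝ)} [Γ.IsArithmetic] [Γ.HasDetOne]
    {k w : ℤ} (G : ModularForm Γ (k + w)) (Q : ModularForm Γ w) (hQ0 : (Q : ℍ → ℂ) ≠ 0)
    {n : ℕ} (hn : 0 < n) (c : Fin n → ℍ → ℂ) (hc : ∀ i, MDiff (c i))
    (hc0 : ∀ (i : Fin n) (γ : SL(2, ℤ)), IsZeroAtImInfty (c i ∣[k * ((n : ℤ) - ((i : ℕ) : ℤ))] γ))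
    (heq : ∀ z, G z ^ n + ∑ i : Fin n, c i z * G z ^ (i : ℕ) * Q z ^ (n - (i : ℕ)) = 0) :
    ∃ f : CuspForm Γ k, ∀ z, f z * Q z = G z := by
  obtain ⟨f, hf, hcusp⟩ := exists_quotient_form G Q hQ0 hn c hc
    (fun i γ => (hc0 i γ).isBoundedAtImInfty) heq
  obtain ⟨f', hf'⟩ := hcusp hc0
  exact ⟨f', fun z => by rw [hf']; exact hf z⟩

end Fermat.Agent.S23_helper24
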