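import Mathlib.NumberTheory.ModularForms.NormTrace
import Mathlib.Analysis.Complex.RemovableSingularity

set_option autoImplicit false

namespace Fermat.Agent.S23_helper24

open UpperHalfPlane Filter Topology
open scoped MatrixGroups ModularForm Manifold

/-! ### Root bound for monic polynomial equations -/

theorem norm_pow_le_of_monic_root {n : ℕ} (hn : 0 < n) (c : Fin n → ℂ) (r : ℂ)
    (h : r ^ n + ∑ i : Fin n, c i * r ^ (i : ℕ) = 0) :
    ‖r‖ ^ n ≤ max (∑ i, ‖c i‖) ((∑ i, ‖c i‖) ^ n) := by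
  set M := ∑ i, ‖c i‖ with hM
  have hM0 : 0 ≤ M := Finset.sum_nonneg fun i _ => norm_nonneg _
  have h1 : ‖r‖ ^ n ≤ ∑ i : Fin n, ‖c i‖ * ‖r‖ ^ (i : ℕ) := by
    have : r ^ n = -∑ i : Fin n, c i * r ^ (i : ℕ) := eq_neg_of_add_eq_zero_left h
    calc ‖r‖ ^ n = ‖r ^ n‖ := (norm_pow r n).symm
      _ = ‖∑ i : Fin n, c i * r ^ (i : ℕ)‖ := by rw [this, norm_neg]
      _ ≤ ∑ i : Fin n, ‖c i * r ^ (i : ℕ)‖ := norm_sum_le _ _
      _ = ∑ i : Fin n, ‖c i‖ * ‖r‖ ^ (i : ℕ) := by simp [norm_pow]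
  rcases le_or_gt ‖r‖ 1 with hr | hr
  · refine le_trans (h1.trans ?_) (le_max_left _ _)
    refine Finset.sum_le_sum fun i _ => ?_
    exact mul_le_of_le_one_right (norm_nonneg _) (pow_le_one₀ (norm_nonneg _) hr)
  · have h2 : ‖r‖ ^ n ≤ M * ‖r‖ ^ (n - 1) := by
      refine h1.trans ?_
      rw [hM, Finset.sum_mul]
      refine Finset.sum_le_sum fun i _ => ?_
      refine mul_le_mul_of_nonneg_left ?_ (norm_nonneg _)
      exact pow_le_pow_right₀ hr.le (by have := i.2; omega)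
    have hpos : 0 < ‖r‖ ^ (n - 1) := pow_pos (lt_trans zero_lt_one hr) _
    have h3 : ‖r‖ ≤ M := by
      have : ‖r‖ ^ n = ‖r‖ * ‖r‖ ^ (n - 1) := by
        rw [← pow_succ', Nat.sub_add_cancel hn]
      rw [this] at h2
      exact le_of_mul_le_mul_right h2 hpos
    exact le_trans (pow_le_pow_left₀ (norm_nonneg _) h3 n) (le_max_right _ _)

/-! ### Removable singularities for quotients -/

/-- zeros of a not identically vanishing holomorphic function on a preconnected open set are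
isolated -/
theorem eventually_ne_zero_of_differentiableOn {U : Set ℂ} (hU : IsOpen U) (hUc : IsPreconnected U)
    {q : ℂ → ℂ} (hq : DifferentiableOn ℂ q U) (hq0 : ∃ z ∈ U, q z ≠ 0) {z₀ : ℂ} (hz₀ : z₀ ∈ U) :
    ∀ᶠ z in 𝓝[≠] z₀, q z ≠ 0 := by
  have han : AnalyticOnNhd ℂ q U := hq.analyticOnNhd hU
  rcases (han z₀ hz₀).eventually_eq_zero_or_eventually_ne_zero with h | h
  · exfalso
    obtain ⟨z, hz, hqz⟩ := hq0
    exact hqz (han.eqOn_zero_of_preconnected_of_eventuallyEq_zero hUc hz₀ h hz)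
  · exact h

theorem exists_differentiableOn_quotient {U : Set ℂ} (hU : IsOpen U) (hUc : IsPreconnected U)
    {g q : ℂ → ℂ} (hg : DifferentiableOn ℂ g U) (hq : DifferentiableOn ℂ q U)
    (hq0 : ∃ z ∈ U, q z ≠ 0) (b : ℂ → ℝ) (hb : ContinuousOn b U)
    (hbd : ∀ z ∈ U, q z ≠ 0 → ‖g z / q z‖ ≤ b z) (hg0 : ∀ z ∈ U, q z = 0 → g z = 0) :
    ∃ h : ℂ → ℂ, DifferentiableOn ℂ h U ∧ ∀ z ∈ U, h z * q z = g z := by
  set h₀ : ℂ → ℂ := fun z => g z / q z with hh₀
  set h : ℂ → ℂ := fun z => limUnder (𝓝[≠] z) h₀ with hh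
  -- at points where `q ≠ 0`, `h = h₀`
  have key1 : ∀ z ∈ U, q z ≠ 0 → h z = h₀ z := by
    intro z hz hqz
    have hd : DifferentiableAt ℂ h₀ z :=
      ((hg z hz).differentiableAt (hU.mem_nhds hz)).div
        ((hq z hz).differentiableAt (hU.mem_nhds hz)) hqz
    exact (hd.continuousAt.tendsto.mono_left nhdsWithin_le_nhds).limUnder_eq
  refine ⟨h, ?_, ?_⟩
  · intro z₀ hz₀
    have hev := eventually_ne_zero_of_differentiableOn hU hUc hq hq0 hz₀
    -- a good neighbourhood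
    have hbev : ∀ᶠ z in 𝓝 z₀, b z < b z₀ + 1 :=
      (hb.continuousAt (hU.mem_nhds hz₀)).eventually (gt_mem_nhds (lt_add_one _))
    have hUev : ∀ᶠ z in 𝓝 z₀, z ∈ U := hU.mem_nhds hz₀
    rw [eventually_nhdsWithin_iff] at hev
    obtain ⟨s, hs, hsopen, hz₀s⟩ := eventually_nhds_iff.mp (hev.and (hbev.and hUev))
    have hsn : s ∈ 𝓝 z₀ := hsopen.mem_nhds hz₀s
    have hd : DifferentiableOn ℂ h₀ (s \ {z₀}) := by
      intro z hz
      have hzU : z ∈ U := (hs z hz.1).2.2
      have hqz : q z ≠ 0 := (hs z hz.1).1 hz.2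
      exact (((hg z hzU).differentiableAt (hU.mem_nhds hzU)).div
        ((hq z hzU).differentiableAt (hU.mem_nhds hzU)) hqz).differentiableWithinAt
    have hbdd : BddAbove (norm ∘ h₀ '' (s \ {z₀})) := by
      refine ⟨b z₀ + 1, ?_⟩
      rintro _ ⟨z, hz, rfl⟩
      have hzU : z ∈ U := (hs z hz.1).2.2
      have hqz : q z ≠ 0 := (hs z hz.1).1 hz.2
      exact (hbd z hzU hqz).trans (hs z hz.1).2.1.le
    have hF := Complex.differentiableOn_update_limUnder_of_bddAbove hsn hd hbdd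
    have heq : Set.EqOn h (Function.update h₀ z₀ (limUnder (𝓝[≠] z₀) h₀)) s := by
      intro z hz
      by_cases hzz : z = z₀
      · subst hzz; simp [hh]
      · rw [Function.update_of_ne hzz]
        exact key1 z (hs z hz).2.2 ((hs z hz).1 hzz)
    exact ((hF z₀ hz₀s).congr_of_eventuallyEq_of_mem
      (by filter_upwards [self_mem_nhdsWithin] with z hz using heq hz) hz₀s).differentiableAt hsn
      |>.differentiableWithinAt
  · intro z hz
    by_cases hqz : q z = 0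
    · rw [hqz, mul_zero, hg0 z hz hqz]
    · rw [key1 z hz hqz, hh₀]
      field_simp

/-! ### The quotient on the upper half plane -/

theorem norm_le_one_add_of_monic_root {n : ℕ} (hn : 0 < n) (c : Fin n → ℂ) (r : ℂ)
    (h : r ^ n + ∑ i : Fin n, c i * r ^ (i : ℕ) = 0) :
    ‖r‖ ≤ 1 + ∑ i, ‖c i‖ := by
  have h1 := norm_pow_le_of_monic_root hn c r h
  set M := ∑ i, ‖c i‖ with hM
  have hM0 : 0 ≤ M := Finset.sum_nonneg fun i _ => norm_nonneg _
  have h2 : max M (M ^ n) ≤ (1 + M) ^ n := by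
    refine max_le ?_ (pow_le_pow_left₀ hM0 (by linarith) n)
    calc M ≤ 1 + M := by linarith
      _ = (1 + M) ^ 1 := (pow_one _).symm
      _ ≤ (1 + M) ^ n := pow_le_pow_right₀ (by linarith) hn
  exact le_of_pow_le_pow_left₀ hn.ne' (by linarith) (h1.trans h2)

theorem exists_mdiff_quotient {G Q : ℍ → ℂ} (hG : MDiff G) (hQ : MDiff Q) (hQ0 : Q ≠ 0)
    {n : ℕ} (hn : 0 < n) (c : Fin n → ℍ → ℂ) (hc : ∀ i, MDiff (c i))
    (heq : ∀ z, G z ^ n + ∑ i : Fin n, c i z * G z ^ (i : ℕ) * Q z ^ (n - (i : ℕ)) = 0) :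
    ∃ h : ℍ → ℂ, MDiff h ∧ ∀ z, h z * Q z = G z := by
  have hU : IsOpen upperHalfPlaneSet := isOpen_upperHalfPlaneSet
  have hUc : IsPreconnected upperHalfPlaneSet :=
    (convex_halfSpace_im_gt 0).isPreconnected
  have hg := UpperHalfPlane.mdifferentiable_iff.mp hG
  have hq := UpperHalfPlane.mdifferentiable_iff.mp hQ
  have hq0 : ∃ z ∈ upperHalfPlaneSet, (Q ∘ ofComplex) z ≠ 0 := by
    by_contra hcon
    push Not at hcon
    apply hQ0
    funext τ
    have := hcon (τ : ℂ) τ.im_pos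
    simpa [Function.comp_apply, ofComplex_apply] using this
  set b : ℂ → ℝ := fun z => 1 + ∑ i, ‖(c i ∘ ofComplex) z‖ with hb
  have hbc : ContinuousOn b upperHalfPlaneSet := by
    refine continuousOn_const.add (continuousOn_finsetSum _ fun i _ => ?_)
    exact (UpperHalfPlane.mdifferentiable_iff.mp (hc i)).continuousOn.norm
  have hbd : ∀ z ∈ upperHalfPlaneSet, (Q ∘ ofComplex) z ≠ 0 →
      ‖(G ∘ ofComplex) z / (Q ∘ ofComplex) z‖ ≤ b z := by
    intro z hz hqz
    refine norm_le_one_add_of_monic_root hn (fun i => (c i ∘ ofComplex) z) _ ?_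
    have := heq (ofComplex z)
    simp only [Function.comp_apply] at hqz ⊢
    have hQn : Q (ofComplex z) ^ n ≠ 0 := pow_ne_zero _ hqz
    rw [div_pow]
    have h3 : ∀ i : Fin n, c i (ofComplex z) * (G (ofComplex z) / Q (ofComplex z)) ^ (i : ℕ) =
        c i (ofComplex z) * G (ofComplex z) ^ (i : ℕ) * Q (ofComplex z) ^ (n - (i : ℕ)) /
          Q (ofComplex z) ^ n := by
      intro i
      have hi : (i : ℕ) ≤ n := i.2.le
      rw [div_pow, eq_div_iff hQn, mul_assoc, mul_assoc]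
      congr 1
      rw [div_mul_eq_mul_div, div_eq_iff (pow_ne_zero _ hqz), mul_assoc, ← pow_add,
        Nat.sub_add_cancel hi]
    rw [Finset.sum_congr rfl fun i _ => h3 i, ← Finset.sum_div, ← add_div, this, zero_div]
  have hg0 : ∀ z ∈ upperHalfPlaneSet, (Q ∘ ofComplex) z = 0 → (G ∘ ofComplex) z = 0 := by
    intro z hz hqz
    simp only [Function.comp_apply] at hqz ⊢
    have := heq (ofComplex z)
    rw [hqz] at this
    have h4 : ∑ i : Fin n, c i (ofComplex z) * G (ofComplex z) ^ (i : ℕ) *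
        (0 : ℂ) ^ (n - (i : ℕ)) = 0 := by
      refine Finset.sum_eq_zero fun i _ => ?_
      rw [zero_pow (by have := i.2; omega), mul_zero]
    rw [h4, add_zero] at this
    exact pow_eq_zero_iff hn.ne' |>.mp this
  obtain ⟨H, hH, hHq⟩ := exists_differentiableOn_quotient hU hUc hg hq hq0 b hbc hbd hg0
  refine ⟨fun τ => H (τ : ℂ), ?_, fun τ => ?_⟩
  · rw [UpperHalfPlane.mdifferentiable_iff]
    refine hH.congr fun z hz => ?_
    simp only [Function.comp_apply]
    rw [ofComplex_apply_of_im_pos hz]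
  · have := hHq (τ : ℂ) τ.im_pos
    simpa [Function.comp_apply, ofComplex_apply] using this


end Fermat.Agent.S23_helper24
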